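import Fermat.Agent.MU.F4.Datum
import Fermat.Agent.MU.S17.W.Final

section MergeWrap_F4_Glob_Fin_Defs -- from F4/Glob/Fin/Defs.lean

/-!
# F4 / GLOB / Fin : finiteness of `Hom(G_{F,S}, 𝔽_p)` — definitions and interfaces

Owner: helper56 (seat FIN).  Goal (`F4/Glob/Fin/Main.lean`): the field `finH1` of `GlobalDatum`,

    ∀ U open in `levelsS S`, `Module.Finite (ZMod p) (H1sm (levelsS S) (permRep (ZMod p) U))`.

Route (Kummer theory; `p ∈ S`):

    finH1  ⟸ FinSmoothChars (levelsS S) p                  (FA, abstract: `Abstract.lean`)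
           ⟸ FinFields p S                                 (FB, Galois theory: `Galois.lean`)
           ⟸ KummerGen p S + KummerOrd p S + FinKummerGroup (ASM: `Assembly.lean`)
    KummerGen      : a cyclic layer `F'/F` of degree `p` lies in `F(ζ_p, α)`, `α ^ p ∈ F(ζ_p)`
    KummerOrd      : if `L(α)` (`α ^ p = x ∈ L`) is unramified outside `S` then `p ∣ ord_w x` for
                     all primes `w` of `L` not above `S`
    FinKummerGroup : `{x ∈ Lˣ | p ∣ ord_w x for all w ∉ T} / (Lˣ)^p` is finite (`T` finite)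
-/

set_option autoImplicit false

open CategoryTheory groupCohomology ExtCitation NumberField IsDedekindDomain IntermediateField
open scoped WithZero

namespace Fermat.Agent.F4Fin

open Fermat.Agent.F4

/-- The algebraic closure of `ℚ`. -/
abbrev Qb : Type := AlgebraicClosure ℚ

/-! ### FA: abstract part -/

/-- The smooth characters `V → 𝔽_p` of a subgroup `V` (trivial on `V ∩ W` for some level `W`). -/
def smoothChars {G : Type} [Group G] (𝓤 : Levels G) (p : ℕ) (V : Subgroup G) :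
    Set (V →* Multiplicative (ZMod p)) :=
  {χ | ∃ W ∈ 𝓤.sets, ∀ v : V, (v : G) ∈ W → χ v = 1}

/-- Every level has finitely many smooth characters with values in `𝔽_p`. -/
def FinSmoothChars {G : Type} [Group G] (𝓤 : Levels G) (p : ℕ) : Prop :=
  ∀ V ∈ 𝓤.sets, (smoothChars 𝓤 p V).Finite

/-! ### FB: Galois theory -/

/-- The layers of degree `p` over `F`, Galois over `F` and unramified outside `S`. -/
def pLayers (p : ℕ) (S : Finset Nat.Primes) (F : IntermediateField ℚ Qb) :
    Set (IntermediateField ℚ Qb) :=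
  {F' | F ≤ F' ∧ F'.IsUnramifiedOutside S ∧ (∀ σ ∈ F.fixingSubgroup, ∀ x ∈ F', σ x ∈ F') ∧
    Module.finrank ℚ F' = p * Module.finrank ℚ F}

/-- Finitely many layers of degree `p` unramified outside `S`. -/
def FinFields (p : ℕ) (S : Finset Nat.Primes) : Prop :=
  ∀ F : IntermediateField ℚ Qb, F.IsUnramifiedOutside S → (pLayers p S F).Finite

/-! ### FC: Kummer theory -/

/-- **(KUM)** every layer of degree `p` over `F` (unramified outside `S ∋ p`) is contained in a
Kummer extension `F(ζ, α)`, `α ^ p ∈ F(ζ)`, unramified outside `S`. -/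
def KummerGen (p : ℕ) [Fact p.Prime] (S : Finset Nat.Primes) : Prop :=
  pPrime p ∈ S →
  ∀ ζ : Qb, IsPrimitiveRoot ζ p → ∀ F : IntermediateField ℚ Qb, F.IsUnramifiedOutside S →
    ∀ F' ∈ pLayers p S F, ∃ α : Qb, α ≠ 0 ∧ α ^ p ∈ F ⊔ ℚ⟮ζ⟯ ∧ F' ≤ F ⊔ ℚ⟮ζ⟯ ⊔ ℚ⟮α⟯ ∧
      (F ⊔ ℚ⟮ζ⟯ ⊔ ℚ⟮α⟯).IsUnramifiedOutside S

/-- **(ORD)** if `L(α)`, `α ^ p = x ∈ L`, is unramified outside `S`, then `p` divides the order of
`x` at every prime of `L` not above `S`. -/
def KummerOrd (p : ℕ) (S : Finset Nat.Primes) : Prop :=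
  ∀ (L : IntermediateField ℚ Qb) [NumberField L] (α : Qb) (x : L), x ≠ 0 → (x : Qb) = α ^ p →
    (L ⊔ ℚ⟮α⟯).IsUnramifiedOutside S →
    ∀ w : HeightOneSpectrum (𝓞 L), (∀ q ∈ S, (((q : ℕ) : ℕ) : 𝓞 L) ∉ w.asIdeal) →
      ∃ y : ℤᵐ⁰, w.valuation L x = y ^ p

/-- The elements of `Lˣ` whose order at every prime outside `T` is divisible by `p`. -/
def kummerGroup (p : ℕ) (L : Type) [Field L] [NumberField L]
    (T : Set (HeightOneSpectrum (𝓞 L))) : Subgroup Lˣ where
  carrier := {x | ∀ w : HeightOneSpectrum (𝓞 L), w ∉ T →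
    ∃ y : ℤᵐ⁰, w.valuation L (x : L) = y ^ p}
  one_mem' := fun w _ => ⟨1, by simp⟩
  mul_mem' := by
    intro a b ha hb w hw
    obtain ⟨y, hy⟩ := ha w hw
    obtain ⟨z, hz⟩ := hb w hw
    exact ⟨y * z, by rw [Units.val_mul, map_mul, hy, hz, mul_pow]⟩
  inv_mem' := by
    intro a ha w hw
    obtain ⟨y, hy⟩ := ha w hw
    exact ⟨y⁻¹, by rw [Units.val_inv_eq_inv_val, map_inv₀, hy, inv_pow]⟩

/-- **(FINX)** the `p`-th powers have finite index in `kummerGroup p L T` for `T` finite. -/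
def FinKummerGroup : Prop :=
  ∀ (p : ℕ) (L : Type) [Field L] [NumberField L] (T : Set (HeightOneSpectrum (𝓞 L))),
    p.Prime → T.Finite →
    ((powMonoidHom p : Lˣ →* Lˣ).range.subgroupOf (kummerGroup p L T)).FiniteIndex

end Fermat.Agent.F4Fin
end MergeWrap_F4_Glob_Fin_Defs

section MergeWrap_F4_Glob_Fin_Abstract -- from F4/Glob/Fin/Abstract.lean

/-!
# F4 / GLOB / Fin / Abstract (FA): finiteness of smooth `H¹` from finiteness of smooth characters

Owner: helper56.  A smooth 1-cocycle `z : G → N` restricted to a level `V` acting trivially on `N`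
is a smooth homomorphism `V → N`; `z` is determined by it and by its values on representatives of
`G / V`.
-/

set_option autoImplicit false

open CategoryTheory groupCohomology

namespace Fermat.Agent.F4Fin

open Fermat.Agent.F4

variable {p : ℕ} [Fact p.Prime] {G : Type} [Group G]

/-- The smooth homomorphisms `V → N` (as functions). -/
def smoothHoms (𝓤 : Levels G) (N : Rep.{0} (ZMod p) G) (V : Subgroup G) : Set (V → N) :=
  {r | (∀ v v' : V, r (v * v') = r v + r v') ∧ ∃ W ∈ 𝓤.sets, ∀ v : V, (v : G) ∈ W → r v = 0}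

/-- The character `φ ∘ r` of a smooth homomorphism `r : V → N` and a linear form `φ` on `N`. -/
noncomputable def smoothHomChar {𝓤 : Levels G} {N : Rep.{0} (ZMod p) G} {V : Subgroup G}
    (r : smoothHoms 𝓤 N V) (φ : N →ₗ[ZMod p] ZMod p) : V →* Multiplicative (ZMod p) where
  toFun v := Multiplicative.ofAdd (φ (r.1 v))
  map_one' := by
    have h := r.2.1 1 1
    rw [mul_one] at h
    have h0 : r.1 1 = 0 := by
      have : r.1 1 + 0 = r.1 1 + r.1 1 := by rw [add_zero]; exact h
      exact (add_left_cancel this).symm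
    rw [h0, map_zero]
    rfl
  map_mul' v v' := by
    rw [r.2.1 v v', map_add]
    rfl

lemma smoothHomChar_mem {𝓤 : Levels G} {N : Rep.{0} (ZMod p) G} {V : Subgroup G}
    (r : smoothHoms 𝓤 N V) (φ : N →ₗ[ZMod p] ZMod p) :
    smoothHomChar r φ ∈ smoothChars 𝓤 p V := by
  obtain ⟨W, hW, hr⟩ := r.2.2
  refine ⟨W, hW, fun v hv => ?_⟩
  show Multiplicative.ofAdd (φ (r.1 v)) = 1
  rw [hr v hv, map_zero]
  rfl

/-- Finitely many smooth homomorphisms `V → N`. -/
lemma finite_smoothHoms (𝓤 : Levels G) (h : FinSmoothChars 𝓤 p) (N : Rep.{0} (ZMod p) G)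
    [Module.Finite (ZMod p) N] (V : Subgroup G) (hV : V ∈ 𝓤.sets) :
    Finite (smoothHoms 𝓤 N V) := by
  have hNfin : Finite N := Module.finite_of_finite (ZMod p)
  have hDual : Finite (N →ₗ[ZMod p] ZMod p) :=
    Finite.of_injective (fun f : N →ₗ[ZMod p] ZMod p => (f : N → ZMod p)) DFunLike.coe_injective
  have hC : Finite (smoothChars 𝓤 p V) := (h V hV).to_subtype
  let Φ : smoothHoms 𝓤 N V → ((N →ₗ[ZMod p] ZMod p) → smoothChars 𝓤 p V) :=
    fun r φ => ⟨smoothHomChar r φ, smoothHomChar_mem r φ⟩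
  refine Finite.of_injective Φ fun r r' hrr' => ?_
  refine Subtype.ext (funext fun v => ?_)
  rw [← sub_eq_zero]
  refine (Module.forall_dual_apply_eq_zero_iff (ZMod p) _).mp fun φ => ?_
  have h1 := congrArg (fun F => ((F φ : smoothChars 𝓤 p V) : V →* Multiplicative (ZMod p)) v) hrr'
  have h2 : Multiplicative.ofAdd (φ (r.1 v)) = Multiplicative.ofAdd (φ (r'.1 v)) := h1
  have h3 : φ (r.1 v) = φ (r'.1 v) := Multiplicative.ofAdd.injective h2
  rw [map_sub, h3, sub_self]

/-- **(FA)** -/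
theorem finite_H1sm_of_finSmoothChars (𝓤 : Levels G) (h : FinSmoothChars 𝓤 p)
    (N : Rep.{0} (ZMod p) G) (hN : IsSmooth 𝓤 N) (hfin : Module.Finite (ZMod p) N) :
    Module.Finite (ZMod p) (H1sm 𝓤 N) := by
  obtain ⟨V, hV, hVN⟩ := exists_level_fixing 𝓤 N hN
  have hNfin : Finite N := Module.finite_of_finite (ZMod p)
  have hVfi : V.FiniteIndex := 𝓤.finiteIndex V hV
  have hQ : Finite (G ⧸ V) := Subgroup.finite_quotient_of_finiteIndex
  have hR : Finite (smoothHoms 𝓤 N V) := finite_smoothHoms 𝓤 h N V hV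
  -- cocycle identities
  have hcoc : ∀ z : ↥(Z1 𝓤 N), ∀ g g' : G, z.1 (g * g') = z.1 g + N.ρ g (z.1 g') := by
    intro z g g'
    have hz : z.1 ∈ cocycles₁ N := z.2.1
    have := (mem_cocycles₁_iff z.1).mp hz g g'
    rw [this, add_comm]
  have hone : ∀ z : ↥(Z1 𝓤 N), z.1 1 = 0 := by
    intro z
    have h1 := hcoc z 1 1
    rw [mul_one, map_one] at h1
    have : z.1 1 + 0 = z.1 1 + z.1 1 := by rw [add_zero]; exact h1
    exact (add_left_cancel this).symm
  -- the restriction to `V`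
  have hres : ∀ z : ↥(Z1 𝓤 N), (fun v : V => z.1 (v : G)) ∈ smoothHoms 𝓤 N V := by
    intro z
    refine ⟨fun v v' => ?_, ?_⟩
    · show z.1 ((v : G) * (v' : G)) = _
      rw [hcoc z, hVN _ v.2]
    · obtain ⟨W, hW, hz⟩ := z.2.2
      refine ⟨W, hW, fun v hv => ?_⟩
      have := hz 1 (v : G) hv
      rw [one_mul] at this
      show z.1 (v : G) = 0
      rw [this, hone z]
  let Φ : ↥(Z1 𝓤 N) → (G ⧸ V → N) × smoothHoms 𝓤 N V :=
    fun z => (fun q => z.1 (Quotient.out q), ⟨fun v : V => z.1 (v : G), hres z⟩)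
  have hZ : Finite ↥(Z1 𝓤 N) := by
    refine Finite.of_injective Φ fun z z' hzz' => ?_
    have h1 : ∀ q : G ⧸ V, z.1 (Quotient.out q) = z'.1 (Quotient.out q) := fun q =>
      congrFun (congrArg Prod.fst hzz') q
    have h2 : ∀ v : V, z.1 (v : G) = z'.1 (v : G) := fun v =>
      congrFun (congrArg (fun x => (x.2 : V → N)) hzz') v
    refine Subtype.ext (funext fun g => ?_)
    have hmem : (Quotient.out (g : G ⧸ V))⁻¹ * g ∈ V := by
      rw [← QuotientGroup.eq]
      exact Quotient.out_eq' _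
    have hg : g = Quotient.out (g : G ⧸ V) * ((Quotient.out (g : G ⧸ V))⁻¹ * g) := by group
    rw [hg, hcoc z, hcoc z', h1, h2 ⟨_, hmem⟩]
  have hH : Finite (H1sm 𝓤 N) := Quotient.finite _
  exact Module.Finite.of_finite

end Fermat.Agent.F4Fin
end MergeWrap_F4_Glob_Fin_Abstract

section MergeWrap_F4_Glob_Fin_Galois -- from F4/Glob/Fin/Galois.lean

/-!
# F4 / GLOB / Fin / Galois (FB): finitely many smooth characters from finitely many layers

Owner: helper56.  For `V = F.fixingSubgroup` (`F` finite, stable, unramified outside `S`) and a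
smooth character `χ ≠ 1` of `V`, trivial on `V ∩ W`, `W = F_W.fixingSubgroup`: the subgroup
`K = ker χ` of `Gal(ℚ̄/ℚ)` contains the open subgroup `(F ⊔ F_W).fixingSubgroup`, hence is closed and
`K = F'.fixingSubgroup` for `F' = fixedField K` (`InfiniteGalois.fixingSubgroup_fixedField`);
`F ≤ F' ≤ F ⊔ F_W`, `F' ∈ pLayers p S F` (`IntermediateField.finrank_eq_fixingSubgroup_index`).
A character trivial on a subgroup of finite index is one of finitely many.
-/

set_option autoImplicit false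

open CategoryTheory groupCohomology ExtCitation IntermediateField

namespace Fermat.Agent.F4Fin

open Fermat.Agent.F4

variable {p : ℕ} [Fact p.Prime]

/-- Finitely many characters of `V` are trivial on a given subgroup of finite index. -/
lemma finite_chars_of_finiteIndex {G : Type} [Group G] (V W : Subgroup G) [W.FiniteIndex] :
    {χ : V →* Multiplicative (ZMod p) | ∀ v : V, (v : G) ∈ W → χ v = 1}.Finite := by
  have hfi : (W.subgroupOf V).FiniteIndex := inferInstance
  have hQ : Finite (V ⧸ W.subgroupOf V) := Subgroup.finite_quotient_of_finiteIndex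
  have hZ : Finite (Multiplicative (ZMod p)) := inferInstance
  refine Set.Finite.of_injOn (f := fun χ : V →* Multiplicative (ZMod p) =>
    fun q : V ⧸ W.subgroupOf V => χ (Quotient.out q)) (t := Set.univ)
    (fun _ _ => Set.mem_univ _) ?_ Set.finite_univ
  intro χ hχ χ' hχ' h
  refine MonoidHom.ext fun v => ?_
  have hmem : (Quotient.out (v : V ⧸ W.subgroupOf V))⁻¹ * v ∈ W.subgroupOf V := by
    rw [← QuotientGroup.eq]
    exact Quotient.out_eq' _
  have hv : v = Quotient.out (v : V ⧸ W.subgroupOf V) *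
      ((Quotient.out (v : V ⧸ W.subgroupOf V))⁻¹ * v) := by group
  have h1 : χ (Quotient.out (v : V ⧸ W.subgroupOf V)) =
      χ' (Quotient.out (v : V ⧸ W.subgroupOf V)) := congrFun h (v : V ⧸ W.subgroupOf V)
  have e : ∀ ψ : V →* Multiplicative (ZMod p), (∀ v : V, (v : G) ∈ W → ψ v = 1) →
      ψ v = ψ (Quotient.out (v : V ⧸ W.subgroupOf V)) := by
    intro ψ hψ
    have h2 := congrArg ψ hv
    rw [map_mul, hψ _ (Subgroup.mem_subgroupOf.mp hmem), mul_one] at h2
    exact h2
  rw [e χ hχ, e χ' hχ', h1]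

/-- A smooth character of `F.fixingSubgroup` is trivial on `F'.fixingSubgroup` for `F' = F` or a
layer `F'` of degree `p` over `F`. -/
lemma exists_layer_of_smoothChar (S : Finset Nat.Primes) (F : IntermediateField ℚ Qb)
    (hF : F.IsUnramifiedOutside S)
    (χ : F.fixingSubgroup →* Multiplicative (ZMod p))
    (hχ : χ ∈ smoothChars (levelsS S) p F.fixingSubgroup) :
    ∃ F' ∈ insert F (pLayers p S F), ∀ v : F.fixingSubgroup,
      (v : GQ) ∈ F'.fixingSubgroup → χ v = 1 := by
  have hGal := isGalois_Qbar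
  by_cases h1 : χ = 1
  · exact ⟨F, Set.mem_insert _ _, fun v _ => by rw [h1]; rfl⟩
  obtain ⟨W, ⟨FW, hFW, -, rfl⟩, hW⟩ := hχ
  have hFfd : FiniteDimensional ℚ F := hF.1
  have hFWfd : FiniteDimensional ℚ FW := hFW.1
  have hsupfd : FiniteDimensional ℚ ↥(F ⊔ FW) := IntermediateField.finiteDimensional_sup F FW
  obtain ⟨V, hVdef⟩ : ∃ V : Subgroup GQ, V = F.fixingSubgroup := ⟨_, rfl⟩
  subst hVdef
  set K : Subgroup GQ := χ.ker.map F.fixingSubgroup.subtype with hKdef
  have hKV : K ≤ F.fixingSubgroup := Subgroup.map_subtype_le _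
  have hmemK : ∀ v : F.fixingSubgroup, (v : GQ) ∈ K ↔ χ v = 1 := by
    intro v
    rw [hKdef, Subgroup.mem_map]
    constructor
    · rintro ⟨k, hk, hkv⟩
      have : k = v := Subtype.ext hkv
      rw [← this]
      exact MonoidHom.mem_ker.mp hk
    · intro hv
      exact ⟨v, MonoidHom.mem_ker.mpr hv, rfl⟩
  have hopen : (F ⊔ FW).fixingSubgroup ≤ K := by
    intro σ hσ
    rw [IntermediateField.fixingSubgroup_sup] at hσ
    exact (hmemK ⟨σ, hσ.1⟩).mpr (hW ⟨σ, hσ.1⟩ hσ.2)
  have hKopen : IsOpen (K : Set GQ) :=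
    Subgroup.isOpen_mono hopen (IntermediateField.fixingSubgroup_isOpen (F ⊔ FW))
  have hKclosed : IsClosed (K : Set GQ) := Subgroup.isClosed_of_isOpen K hKopen
  set F' : IntermediateField ℚ Qb := IntermediateField.fixedField K with hF'def
  have hfix : F'.fixingSubgroup = K :=
    InfiniteGalois.fixingSubgroup_fixedField (⟨K, hKclosed⟩ : ClosedSubgroup GQ)
  have hFF' : F ≤ F' := (IntermediateField.le_iff_le K F).mpr hKV
  have hF'le : F' ≤ F ⊔ FW := by
    have := IntermediateField.fixedField_antitone hopen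
    rwa [InfiniteGalois.fixedField_fixingSubgroup] at this
  have hF'unr : F'.IsUnramifiedOutside S := (hF.sup hFW).of_le hF'le
  have hstable : ∀ σ ∈ F.fixingSubgroup, ∀ x ∈ F', σ x ∈ F' := by
    intro σ hσ x hx
    rw [hF'def, IntermediateField.mem_fixedField_iff] at hx ⊢
    intro k hk
    have hkV : k ∈ F.fixingSubgroup := hKV hk
    have hconj : σ⁻¹ * k * σ ∈ K := by
      have hmem : σ⁻¹ * k * σ ∈ F.fixingSubgroup :=
        F.fixingSubgroup.mul_mem (F.fixingSubgroup.mul_mem (F.fixingSubgroup.inv_mem hσ) hkV) hσ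
      rw [← Subtype.coe_mk (σ⁻¹ * k * σ) hmem, hmemK]
      have e : (⟨σ⁻¹ * k * σ, hmem⟩ : F.fixingSubgroup) =
          (⟨σ, hσ⟩ : F.fixingSubgroup)⁻¹ * ⟨k, hkV⟩ * ⟨σ, hσ⟩ := rfl
      rw [e, map_mul, map_mul, map_inv, (hmemK ⟨k, hkV⟩).mp hk, mul_one, inv_mul_cancel]
    have h2 := hx _ hconj
    have h3 : σ ((σ⁻¹ * k * σ) x) = k (σ x) := by
      show σ (σ⁻¹ (k (σ x))) = k (σ x)
      exact AlgEquiv.apply_symm_apply σ _
    rw [← h3, h2]
  have hrange : χ.range = ⊤ := by
    have hcard : Nat.card (Multiplicative (ZMod p)) = p := by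
      rw [Nat.card_eq_fintype_card]
      exact (Fintype.card_congr Multiplicative.ofAdd.symm).trans (ZMod.card p)
    have : Fact (Nat.card (Multiplicative (ZMod p))).Prime := ⟨by rw [hcard]; exact Fact.out⟩
    rcases Subgroup.eq_bot_or_eq_top_of_prime_card χ.range with h | h
    · exfalso
      apply h1
      refine MonoidHom.ext fun v => ?_
      have : χ v ∈ χ.range := ⟨v, rfl⟩
      rw [h] at this
      exact Subgroup.mem_bot.mp this
    · exact h
  have hindex : K.index = p * F.fixingSubgroup.index := by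
    rw [hKdef, Subgroup.index_map_subtype, Subgroup.index_ker, hrange, Nat.card_congr
      (Subgroup.topEquiv (G := Multiplicative (ZMod p))).toEquiv, Nat.card_eq_fintype_card]
    congr 1
    exact (Fintype.card_congr Multiplicative.ofAdd.symm).trans (ZMod.card p)
  have hrank : Module.finrank ℚ F' = p * Module.finrank ℚ F := by
    rw [IntermediateField.finrank_eq_fixingSubgroup_index Qb F',
      IntermediateField.finrank_eq_fixingSubgroup_index Qb F, hfix, hindex]
  refine ⟨F', Set.mem_insert_of_mem _ ⟨hFF', hF'unr, hstable, hrank⟩, fun v hv => ?_⟩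
  rw [hfix] at hv
  exact (hmemK v).mp hv

/-- **(FB)** -/
theorem finSmoothChars_of_finFields (S : Finset Nat.Primes) (h : FinFields p S) :
    FinSmoothChars (levelsS S) p := by
  rintro V ⟨F, hF, -, rfl⟩
  have hfin : (insert F (pLayers p S F)).Finite := (h F hF).insert F
  have hsub : smoothChars (levelsS S) p F.fixingSubgroup ⊆
      ⋃ F' ∈ insert F (pLayers p S F),
        {χ : F.fixingSubgroup →* Multiplicative (ZMod p) |
          ∀ v : F.fixingSubgroup, (v : GQ) ∈ F'.fixingSubgroup → χ v = 1} := by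
    intro χ hχ
    obtain ⟨F', hF', hχF'⟩ := exists_layer_of_smoothChar S F hF χ hχ
    exact Set.mem_biUnion hF' hχF'
  refine (Set.Finite.biUnion hfin fun F' hF' => ?_).subset hsub
  have hfd : FiniteDimensional ℚ F' := by
    rcases hF' with rfl | hF'
    · exact hF.1
    · exact hF'.2.1.1
  have : F'.fixingSubgroup.FiniteIndex := finiteIndex_fixingSubgroup F' hfd
  exact finite_chars_of_finiteIndex _ _

end Fermat.Agent.F4Fin
end MergeWrap_F4_Glob_Fin_Galois

section MergeWrap_F4_Glob_Fin_Main -- from F4/Glob/Fin/Main.lean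

/-!
# F4 / GLOB / Fin / Main : `Hom(G_{F,S}, 𝔽_p)` is finite (the field `finH1` of `GlobalDatum`)

From helper29's `Fermat.Agent.KFin.kfin` (Kummer theory + `S`-units): every smooth character of a
level `V` is trivial on the fixing subgroup of ONE finite extension; then `Abstract.lean` (FA).
No hypothesis on `p` and `S`.
-/

set_option autoImplicit false

open CategoryTheory groupCohomology ExtCitation IntermediateField

namespace Fermat.Agent.F4Fin

open Fermat.Agent.F4

variable {p : ℕ} [Fact p.Prime]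

/-- Every level of `G_S` has finitely many smooth characters with values in `𝔽_p`. -/
theorem finSmoothChars_levelsS (S : Finset Nat.Primes) : FinSmoothChars (levelsS S) p := by
  rintro V ⟨F₀, hF₀, -, rfl⟩
  have hp : p.Prime := Fact.out
  have hF₀fd : FiniteDimensional ℚ F₀ := hF₀.1
  obtain ⟨F, hFfd, -, hF⟩ := Fermat.Agent.KFin.kfin p hp
    (S.image (fun q : Nat.Primes => (q : ℕ))) F₀.fixingSubgroup ⟨F₀, hF₀.1, le_rfl⟩
  have hfi : F.fixingSubgroup.FiniteIndex := finiteIndex_fixingSubgroup F hFfd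
  refine (finite_chars_of_finiteIndex (p := p) F₀.fixingSubgroup F.fixingSubgroup).subset ?_
  rintro χ ⟨W, ⟨F₁, hF₁, -, rfl⟩, hW⟩
  have hF₁fd : FiniteDimensional ℚ F₁ := hF₁.1
  have hmemN : ∀ v : F₀.fixingSubgroup,
      (v : GQ) ∈ χ.ker.map F₀.fixingSubgroup.subtype ↔ χ v = 1 := by
    intro v
    rw [Subgroup.mem_map]
    constructor
    · rintro ⟨k, hk, hkv⟩
      have : k = v := Subtype.ext hkv
      rw [← this]
      exact MonoidHom.mem_ker.mp hk
    · intro hv
      exact ⟨v, MonoidHom.mem_ker.mpr hv, rfl⟩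
  have hopen : (F₀ ⊔ F₁).fixingSubgroup ≤ χ.ker.map F₀.fixingSubgroup.subtype := by
    intro σ hσ
    rw [IntermediateField.fixingSubgroup_sup] at hσ
    exact (hmemN ⟨σ, hσ.1⟩).mpr (hW ⟨σ, hσ.1⟩ hσ.2)
  have hle := hF (χ.ker.map F₀.fixingSubgroup.subtype) (Subgroup.map_subtype_le _)
    ⟨F₀ ⊔ F₁, IntermediateField.finiteDimensional_sup F₀ F₁, hopen⟩
    (fun σ hσ τ hτ => by
      have hmem : σ * τ * σ⁻¹ * τ⁻¹ ∈ F₀.fixingSubgroup :=
        F₀.fixingSubgroup.mul_mem (F₀.fixingSubgroup.mul_mem (F₀.fixingSubgroup.mul_mem hσ hτ)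
          (F₀.fixingSubgroup.inv_mem hσ)) (F₀.fixingSubgroup.inv_mem hτ)
      rw [← Subtype.coe_mk (σ * τ * σ⁻¹ * τ⁻¹) hmem, hmemN]
      have e : (⟨σ * τ * σ⁻¹ * τ⁻¹, hmem⟩ : F₀.fixingSubgroup) =
          (⟨σ, hσ⟩ : F₀.fixingSubgroup) * ⟨τ, hτ⟩ * (⟨σ, hσ⟩ : F₀.fixingSubgroup)⁻¹ *
            (⟨τ, hτ⟩ : F₀.fixingSubgroup)⁻¹ := rfl
      rw [e, map_mul, map_mul, map_mul, map_inv, map_inv]
      exact mul_inv_eq_one.mpr (by rw [mul_inv_eq_iff_eq_mul, mul_comm]))
    (fun σ hσ => by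
      have hmem : σ ^ p ∈ F₀.fixingSubgroup := F₀.fixingSubgroup.pow_mem hσ p
      rw [← Subtype.coe_mk (σ ^ p) hmem, hmemN]
      have e : (⟨σ ^ p, hmem⟩ : F₀.fixingSubgroup) = (⟨σ, hσ⟩ : F₀.fixingSubgroup) ^ p := rfl
      rw [e, map_pow]
      have h1 : ∀ a : Multiplicative (ZMod p), a ^ p = 1 := by
        intro a
        have : (p : ℕ) • (Multiplicative.toAdd a) = 0 := by
          rw [nsmul_eq_mul, ZMod.natCast_self, zero_mul]
        exact congrArg Multiplicative.ofAdd this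
      exact h1 _)
    (fun q hq hqS A hA => by
      have hqS' : (⟨q, hq⟩ : Nat.Primes) ∉ S := by
        intro h
        exact hqS (Finset.mem_image.mpr ⟨⟨q, hq⟩, h, rfl⟩)
      intro σ hσ
      apply hopen
      rw [IntermediateField.fixingSubgroup_sup]
      exact ⟨hF₀.2 ⟨q, hq⟩ hqS' A hA hσ, hF₁.2 ⟨q, hq⟩ hqS' A hA hσ⟩)
  intro v hv
  exact (hmemN v).mp (hle hv)

/-- Smooth `H¹` of a finite smooth `𝔽_p[G_S]`-module is finite. -/
theorem finite_H1sm_levelsS (S : Finset Nat.Primes)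
    (N : Rep.{0} (ZMod p) GQ) (hN : IsSmooth (levelsS S) N) (hfin : Module.Finite (ZMod p) N) :
    Module.Finite (ZMod p) (H1sm (levelsS S) N) :=
  finite_H1sm_of_finSmoothChars (levelsS S) (finSmoothChars_levelsS S) N hN hfin

/-- **The field `finH1` of `GlobalDatum`.** -/
theorem finH1 (S : Finset Nat.Primes) (U : Subgroup GQ) (hU : (levelsS S).IsOpen U) :
    Module.Finite (ZMod p) (H1sm (levelsS S) (permRep (ZMod p) U)) :=
  finite_H1sm_levelsS S _ (permRep_smooth _ hU) (permRep_finite _ hU)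

end Fermat.Agent.F4Fin
end MergeWrap_F4_Glob_Fin_Main
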